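/-
S25 / block ABEL, sub-block AB-ALG, leaf AA4 (helper266): rigidifiability of gluing data is
Zariski-local on the base, in the base-change sense.  Pure algebra; imports the frozen
`DefsAlg` only.

Main result `exists_rigidifiable_of_isBC`: for a gluing datum `G` over `A` and a prime `𝔭` of
`A` there is `f ∉ 𝔭` such that every base change of `G` along `ψ : A → A'` with `ψ f` a unit
is rigidifiable.
-/
import Fermat.Agent.S25.DefsAlg

set_option autoImplicit false
set_option linter.style.haveILetI false
universe u
open scoped TensorProduct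

namespace Fermat.Agent.S25.H266

open Fermat.Agent.S25

noncomputable section

section Pure

/-- A linear map from an invertible module to an invertible module over a bigger ring whose
image generates is a base change. -/
theorem isBaseChange_of_span_range_eq_top {R S : Type*} [CommRing R] [CommRing S] [Algebra R S]
    {N Q : Type*} [AddCommGroup N] [Module R N] [Module.Invertible R N] [AddCommGroup Q]
    [Module R Q] [Module S Q] [IsScalarTower R S Q] [Module.Invertible S Q] (c : N →ₗ[R] Q)
    (hc : Submodule.span S (Set.range c) = ⊤) : IsBaseChange S c := by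
  have hsurj : Function.Surjective (LinearMap.liftBaseChange S c) := by
    rw [← LinearMap.range_eq_top, eq_top_iff, ← hc, Submodule.span_le]
    rintro _ ⟨n, rfl⟩
    exact ⟨1 ⊗ₜ n, by simp⟩
  have hbij : Function.Bijective (LinearMap.liftBaseChange S c) :=
    Module.Invertible.bijective_of_surjective hsurj
  exact IsBaseChange.of_equiv (LinearEquiv.ofBijective _ hbij) (fun x => by simp)

/-- On an invertible module some functional takes a value outside a given prime ideal. -/
theorem exists_dual_apply_not_mem {S : Type*} [CommRing S] {E : Type*} [AddCommGroup E]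
    [Module S E] [Module.Invertible S E] (𝔭 : Ideal S) (h𝔭 : 𝔭 ≠ ⊤) :
    ∃ (φ : Module.Dual S E) (m : E), φ m ∉ 𝔭 := by
  by_contra hcon
  simp only [not_exists, not_not] at hcon
  have key : ∀ t : Module.Dual S E ⊗[S] E, contractLeft S E t ∈ 𝔭 := by
    intro t
    induction t using TensorProduct.induction_on with
    | zero => simp
    | tmul φ m => simpa using hcon φ m
    | add x y hx hy => rw [map_add]; exact 𝔭.add_mem hx hy
  obtain ⟨t, ht⟩ := (Module.Invertible.bijective (R := S) (M := E)).2 1
  exact h𝔭 ((Ideal.eq_top_iff_one 𝔭).2 (ht ▸ key t))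

end Pure

section Semilinear

variable {R R' : Type u} [CommRing R] [CommRing R'] (ρ : R →+* R')

/-- A semilinear map from an invertible module to the target ring taking a unit value is a
(semilinear) base change. -/
theorem isSemilinearBaseChange_of_isUnit {N : Type u} [AddCommGroup N] [Module R N]
    [Module.Invertible R N] (c : N →ₛₗ[ρ] R') (n : N) (hn : IsUnit (c n)) :
    IsSemilinearBaseChange ρ c := by
  unfold IsSemilinearBaseChange
  letI : Algebra R R' := ρ.toAlgebra
  letI : Module R R' := Module.compHom R' ρ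
  haveI : IsScalarTower R R' R' := ⟨fun r r' n => by
    change (ρ r * r') • n = ρ r • (r' • n); rw [mul_smul]⟩
  apply isBaseChange_of_span_range_eq_top
  rw [eq_top_iff]
  intro s _
  obtain ⟨u, hu⟩ := hn
  have : s = (s * ↑u⁻¹) • c n := by
    rw [← hu, smul_eq_mul, mul_assoc, Units.inv_mul, mul_one]
  rw [this]
  exact Submodule.smul_mem _ _ (Submodule.subset_span ⟨n, rfl⟩)

/-- On an invertible `R`-module there is a `ρ`-semilinear functional to `R'` taking a value
outside a given prime ideal of `R'`. -/
theorem exists_semilinear_not_mem {N : Type u} [AddCommGroup N] [Module R N]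
    [Module.Invertible R N] (𝔭 : Ideal R') (h𝔭 : 𝔭.IsPrime) :
    ∃ (l : N →ₛₗ[ρ] R') (n : N), l n ∉ 𝔭 := by
  letI : Algebra R R' := ρ.toAlgebra
  obtain ⟨φ, m, hm⟩ := exists_dual_apply_not_mem (E := R' ⊗[R] N) 𝔭 h𝔭.ne_top
  have hex : ∃ n : N, φ (1 ⊗ₜ[R] n) ∉ 𝔭 := by
    by_contra hcon
    simp only [not_exists, not_not] at hcon
    have all : ∀ m : R' ⊗[R] N, φ m ∈ 𝔭 := by
      intro m
      induction m using TensorProduct.induction_on with
      | zero => simp
      | tmul s n =>
        have : s ⊗ₜ[R] n = s • ((1 : R') ⊗ₜ[R] n) := by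
          rw [TensorProduct.smul_tmul', smul_eq_mul, mul_one]
        rw [this, map_smul]
        exact 𝔭.mul_mem_left _ (hcon n)
      | add x y hx hy => rw [map_add]; exact 𝔭.add_mem hx hy
    exact hm (all m)
  obtain ⟨n, hn⟩ := hex
  refine ⟨{ toFun := fun n => φ (1 ⊗ₜ[R] n)
            map_add' := fun a b => by rw [TensorProduct.tmul_add, map_add]
            map_smul' := fun r a => by
              have : (1 : R') ⊗ₜ[R] (r • a) = (ρ r) • ((1 : R') ⊗ₜ[R] a) := by
                rw [TensorProduct.smul_tmul', smul_eq_mul, mul_one, TensorProduct.tmul_smul,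
                  TensorProduct.smul_tmul']
                congr 1
                exact (mul_one _)
              rw [this, map_smul] }, n, hn⟩

/-- Universal property of a semilinear base change, semilinear form. -/
theorem exists_semilinear_lift {S : Type u} [CommRing S] (σ : R' →+* S) {N N' : Type u}
    [AddCommGroup N] [Module R N] [AddCommGroup N'] [Module R' N'] (b : N →ₛₗ[ρ] N')
    (hb : IsSemilinearBaseChange ρ b) {Q : Type u} [AddCommGroup Q] [Module S Q]
    (g : N →ₛₗ[σ.comp ρ] Q) : ∃ g' : N' →ₛₗ[σ] Q, ∀ n, g' (b n) = g n := by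
  unfold IsSemilinearBaseChange at hb
  letI : Algebra R R' := ρ.toAlgebra
  letI : Module R N' := Module.compHom N' ρ
  haveI : IsScalarTower R R' N' := ⟨fun r r' n => by
    change (ρ r * r') • n = ρ r • (r' • n); rw [mul_smul]⟩
  letI : Module R' Q := Module.compHom Q σ
  letI : Module R Q := Module.compHom Q (σ.comp ρ)
  haveI : IsScalarTower R R' Q := ⟨fun r r' q => by
    change σ (ρ r * r') • q = σ (ρ r) • (σ r' • q); rw [map_mul, mul_smul]⟩
  let g₀ : N →ₗ[R] Q :=
    { toFun := fun n => g n
      map_add' := fun m n => g.map_add m n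
      map_smul' := fun r n => LinearMap.map_smulₛₗ g r n }
  refine ⟨{ toFun := fun n' => hb.lift g₀ n'
            map_add' := fun m n => (hb.lift g₀).map_add m n
            map_smul' := fun r' n' => (hb.lift g₀).map_smul r' n' }, fun n => ?_⟩
  exact hb.lift_eq g₀ n

end Semilinear

section Main

variable {k : Type u} [Field k] {B₀ B₁ B₀₁ : Type u} [CommRing B₀] [CommRing B₁] [CommRing B₀₁]
  [Algebra k B₀] [Algebra k B₁] [Algebra k B₀₁] [Algebra B₀ B₀₁] [Algebra B₁ B₀₁]
  [IsScalarTower k B₀ B₀₁] [IsScalarTower k B₁ B₀₁]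

/-- The marked section commutes with base change. -/
theorem epsHom_tensorMapLeft (e : B₁ →ₐ[k] k) {A A' : Type u} [CommRing A] [Algebra k A]
    [CommRing A'] [Algebra k A'] (ψ : A →ₐ[k] A') (r : A ⊗[k] B₁) :
    epsHom e A' (tensorMapLeft k ψ B₁ r) = ψ (epsHom e A r) := by
  induction r using TensorProduct.induction_on with
  | zero => simp
  | tmul a b => simp [epsHom, tensorMapLeft, Algebra.ofId_apply]
  | add x y hx hy => simp only [map_add, hx, hy]

/-- **AA4, general form.** Rigidifiability of a gluing datum is Zariski-local on the base: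
for a prime `𝔭` of `A` there is `f ∉ 𝔭` such that every base change of `G` along a map
inverting `f` is rigidifiable. -/
theorem exists_rigidifiable_of_isBC (e : B₁ →ₐ[k] k) {A : Type u} [CommRing A] [Algebra k A]
    (G : CurveGD k B₀ B₁ B₀₁ A) (𝔭 : Ideal A) (h𝔭 : 𝔭.IsPrime) :
    ∃ f : A, f ∉ 𝔭 ∧ ∀ (A' : Type u) [CommRing A'] [Algebra k A'] (ψ : A →ₐ[k] A'),
      IsUnit (ψ f) → ∀ G' : CurveGD k B₀ B₁ B₀₁ A', CurveGD.IsBC ψ G G' →
        G'.Rigidifiable e := by
  haveI := G.invertible₁
  obtain ⟨l, n, hn⟩ := exists_semilinear_not_mem (epsHom e A).toRingHom (N := G.N₁) 𝔭 h𝔭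
  refine ⟨l n, hn, ?_⟩
  intro A' _ _ ψ hψ G' hBC
  obtain ⟨bcm⟩ := hBC
  let g : G.N₁ →ₛₗ[(epsHom e A').toRingHom.comp (tensorMapLeft k ψ B₁)] A' :=
    { toFun := fun m => ψ (l m)
      map_add' := fun a b => by rw [map_add, map_add]
      map_smul' := fun r m => by
        rw [LinearMap.map_smulₛₗ, smul_eq_mul, map_mul]
        change _ = (epsHom e A') (tensorMapLeft k ψ B₁ r) • _
        rw [epsHom_tensorMapLeft, smul_eq_mul]
        rfl }
  obtain ⟨c, hc⟩ := exists_semilinear_lift (tensorMapLeft k ψ B₁) (epsHom e A').toRingHom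
    bcm.b₁ bcm.isBaseChange₁ g
  haveI := G'.invertible₁
  exact ⟨c, isSemilinearBaseChange_of_isUnit _ c (bcm.b₁ n) (by rw [hc]; exact hψ)⟩

end Main

end

end Fermat.Agent.S25.H266
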