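/-
S25 / block ABEL, sub-block AB-ALG, leaf AA4 (helper266): the algebraic Abel datum is
Zariski-locally rigidifiable.  Exact statement of `H747.Skel.abelDatum_locRig`, with leaf AA2
(`abelDatum_isBC`, compatibility with base change) as the only hypothesis.
-/
import Fermat.Agent.S25.H747.AbAlgDefs
import Fermat.Agent.S25.H266.AbRigLocal

set_option autoImplicit false
universe u
open scoped TensorProduct

namespace Fermat.Agent.S25.H266

open Fermat.Agent.S25 Fermat.Agent.S25.H747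

variable {k : Type u} [Field k]
  {B₀ B₁ B₀₁ : Type u} [CommRing B₀] [CommRing B₁] [CommRing B₀₁]
  [Algebra k B₀] [Algebra k B₁] [Algebra k B₀₁] [Algebra B₀ B₀₁] [Algebra B₁ B₀₁]
  [IsScalarTower k B₀ B₀₁] [IsScalarTower k B₁ B₀₁]

/-- **AA4** (`abelDatum_locRig`) from **AA2** (`abelDatum_isBC`): Zariski-locally on `Spec A`
the algebraic Abel datum is rigidifiable. -/
theorem abelDatum_locRig_of_isBC (e : B₁ →ₐ[k] k) (g : ℕ)
    (A : Type u) [CommRing A] [Algebra k A] (P : Fin g → H746.ChartPt k B₀ B₁ A)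
    (hBC : ∀ (A' : Type u) [CommRing A'] [Algebra k A'] (ψ : A →ₐ[k] A'),
      CurveGD.IsBC ψ (abelDatum (B₀₁ := B₀₁) e g A P)
        (abelDatum (B₀₁ := B₀₁) e g A' (fun i => (P i).map ψ)))
    (𝔭 : Ideal A) (h𝔭 : 𝔭.IsPrime) : ∃ f : A, f ∉ 𝔭 ∧
      ∀ (A' : Type u) [CommRing A'] [Algebra k A'] (ψ : A →ₐ[k] A'), IsUnit (ψ f) →
        (abelDatum (B₀₁ := B₀₁) e g A' (fun i => (P i).map ψ)).Rigidifiable e := by
  obtain ⟨f, hf, H⟩ := exists_rigidifiable_of_isBC e (abelDatum (B₀₁ := B₀₁) e g A P) 𝔭 h𝔭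
  exact ⟨f, hf, fun A' _ _ ψ hψ => H A' ψ hψ _ (hBC A' ψ)⟩

end Fermat.Agent.S25.H266
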