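/-
S25 / block ABEL, sub-block AB-ALG, leaves G1 and G2 (helper266): the internal Hom of gluing
data.  `ℋom(G, G) ≅ O` and `ℋom` respects isomorphisms.  Exact statements of
`H747.Skel.homDatum_self_isIso` and `H747.Skel.homDatum_isIso_congr`.
-/
import Fermat.Agent.S25.H747.GDHom

set_option autoImplicit false
set_option linter.style.haveILetI false
universe u
open scoped TensorProduct

namespace Fermat.Agent.S25.H266

open Fermat.Agent.S25 Fermat.Agent.S25.H747

noncomputable section

variable {A R₀ R₁ R₀₁ : Type u} [CommRing A] [CommRing R₀] [CommRing R₁]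
    [CommRing R₀₁] [Algebra A R₀] [Algebra A R₁] [Algebra A R₀₁] [Algebra R₀ R₀₁]
    [Algebra R₁ R₀₁] [IsScalarTower A R₀ R₀₁] [IsScalarTower A R₁ R₀₁]

/-- The inverse of an isomorphism of gluing data. -/
def gdIsoSymm {G G' : GlueDatum A R₀ R₁ R₀₁} (a : GlueDatum.Iso G G') : GlueDatum.Iso G' G where
  e₀ := a.e₀.symm
  e₁ := a.e₁.symm
  e₀₁ := a.e₀₁.symm
  comm₀ := fun s => by
    rw [LinearEquiv.symm_apply_eq, a.comm₀, LinearEquiv.apply_symm_apply]
  comm₁ := fun s => by
    rw [LinearEquiv.symm_apply_eq, a.comm₁, LinearEquiv.apply_symm_apply]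

theorem gdIsIso_symm {G G' : GlueDatum A R₀ R₁ R₀₁} (h : G.IsIso G') : G'.IsIso G :=
  h.elim fun a => ⟨gdIsoSymm a⟩

/-- The homothety equivalence `R ≃ End_R(N)` of an invertible module. -/
def homothetyEquiv (R : Type u) [CommRing R] (N : Type u) [AddCommGroup N] [Module R N]
    [Module.Invertible R N] : R ≃ₗ[R] (N →ₗ[R] N) :=
  LinearEquiv.ofBijective (LinearMap.toSpanSingleton R (N →ₗ[R] N) LinearMap.id) (by
    have h := Module.Invertible.toModuleEnd_bijective R N
    have : ⇑(LinearMap.toSpanSingleton R (N →ₗ[R] N) LinearMap.id)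
        = ⇑(Module.toModuleEnd R (S := R) N) := by
      funext r
      ext n
      simp
    rw [this]
    exact h)

@[simp] theorem homothetyEquiv_apply (R : Type u) [CommRing R] (N : Type u) [AddCommGroup N]
    [Module R N] [Module.Invertible R N] (r : R) (n : N) :
    homothetyEquiv R N r n = r • n := by
  simp [homothetyEquiv]

/-- The module of sections over the intersection is invertible. -/
theorem invertible₀₁ (G : GlueDatum A R₀ R₁ R₀₁) : Module.Invertible R₀₁ G.N₀₁ :=
  haveI := G.invertible₀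
  Module.Invertible.congr G.isBaseChange₀.equiv

/-- **G1.** `ℋom(G, G) ≅ O`. -/
theorem homDatum_self_isIso (G : GlueDatum A R₀ R₁ R₀₁) :
    (homDatum G G).IsIso (GlueDatum.unit A R₀ R₁ R₀₁) := by
  haveI := G.invertible₀
  haveI := G.invertible₁
  haveI := invertible₀₁ G
  refine gdIsIso_symm ⟨?_⟩
  exact
    { e₀ := homothetyEquiv R₀ G.N₀
      e₁ := homothetyEquiv R₁ G.N₁
      e₀₁ := homothetyEquiv R₀₁ G.N₀₁
      comm₀ := fun s => by
        apply G.isBaseChange₀.algHom_ext
        intro m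
        change homothetyEquiv R₀₁ G.N₀₁ (algebraMap R₀ R₀₁ s) (G.r₀ m) =
          IsBaseChange.linearMapLeftRightHom G.isBaseChange₀ G.r₀
            (homothetyEquiv R₀ G.N₀ s) (G.r₀ m)
        rw [IsBaseChange.linearMapLeftRightHom_comp_apply, homothetyEquiv_apply,
          homothetyEquiv_apply, map_smul, algebraMap_smul]
      comm₁ := fun s => by
        apply G.isBaseChange₁.algHom_ext
        intro m
        change homothetyEquiv R₀₁ G.N₀₁ (algebraMap R₁ R₀₁ s) (G.r₁ m) =
          IsBaseChange.linearMapLeftRightHom G.isBaseChange₁ G.r₁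
            (homothetyEquiv R₁ G.N₁ s) (G.r₁ m)
        rw [IsBaseChange.linearMapLeftRightHom_comp_apply, homothetyEquiv_apply,
          homothetyEquiv_apply, map_smul, algebraMap_smul] }

/-- **G2.** `ℋom` respects isomorphisms. -/
theorem homDatum_isIso_congr {G G₁ G' G₁' : GlueDatum A R₀ R₁ R₀₁} (h : G.IsIso G₁)
    (h' : G'.IsIso G₁') : (homDatum G G').IsIso (homDatum G₁ G₁') := by
  obtain ⟨a⟩ := h
  obtain ⟨b⟩ := h'
  refine ⟨?_⟩
  exact
    { e₀ := LinearEquiv.arrowCongr a.e₀ b.e₀
      e₁ := LinearEquiv.arrowCongr a.e₁ b.e₁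
      e₀₁ := LinearEquiv.arrowCongr a.e₀₁ b.e₀₁
      comm₀ := fun f => by
        apply G₁.isBaseChange₀.algHom_ext
        intro m
        change b.e₀₁ (IsBaseChange.linearMapLeftRightHom G.isBaseChange₀ G'.r₀ f
            (a.e₀₁.symm (G₁.r₀ m))) =
          IsBaseChange.linearMapLeftRightHom G₁.isBaseChange₀ G₁'.r₀
            (LinearEquiv.arrowCongr a.e₀ b.e₀ f) (G₁.r₀ m)
        have h1 : a.e₀₁.symm (G₁.r₀ m) = G.r₀ (a.e₀.symm m) := by
          rw [LinearEquiv.symm_apply_eq, a.comm₀, LinearEquiv.apply_symm_apply]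
        rw [h1, IsBaseChange.linearMapLeftRightHom_comp_apply,
          IsBaseChange.linearMapLeftRightHom_comp_apply, b.comm₀]
        rfl
      comm₁ := fun f => by
        apply G₁.isBaseChange₁.algHom_ext
        intro m
        change b.e₀₁ (IsBaseChange.linearMapLeftRightHom G.isBaseChange₁ G'.r₁ f
            (a.e₀₁.symm (G₁.r₁ m))) =
          IsBaseChange.linearMapLeftRightHom G₁.isBaseChange₁ G₁'.r₁
            (LinearEquiv.arrowCongr a.e₁ b.e₁ f) (G₁.r₁ m)
        have h1 : a.e₀₁.symm (G₁.r₁ m) = G.r₁ (a.e₁.symm m) := by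
          rw [LinearEquiv.symm_apply_eq, a.comm₁, LinearEquiv.apply_symm_apply]
        rw [h1, IsBaseChange.linearMapLeftRightHom_comp_apply,
          IsBaseChange.linearMapLeftRightHom_comp_apply, b.comm₁]
        rfl }

end

end Fermat.Agent.S25.H266
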