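import Fermat.Agent.S25.H266.GlueIso

/-!
# S25 / block GLUE / G2 — objects glue (helper266): summary statement

Let `U : ι → X.Opens` be a family of opens of a scheme `X` (no covering hypothesis is needed
for existence), `D : GlueDatum U` a gluing datum (modules `D.M i` on `U i`, isomorphisms
`D.φ i j : M i |_{U i ⊓ U j} ≅ M j |_{U i ⊓ U j}`, restriction = `Scheme.Modules.restrict`
along `X.homOfLE`).  Under the sectionwise cocycle condition `D.Cocycle` (which may be checked
on opens of the triple overlaps, `GlueDatum.cocycle_of_eq`), there is a module `N` on `X` with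
isomorphisms `α i : N |_{U i} ≅ M i` compatible with the transition maps `D.tr`.

Main declarations (namespace `Fermat.Agent.S25.H266`):
* `GlueDatum`, `GlueDatum.sec`, `GlueDatum.tr`, `GlueDatum.Cocycle`, `GlueDatum.cocycle_of_eq`
* `GlueDatum.glued`, `GlueDatum.π`, `GlueDatum.α`, `GlueDatum.αHom_tr`
* `exists_glue`
-/

open CategoryTheory CategoryTheory.Limits AlgebraicGeometry TopologicalSpace Opposite

universe u

namespace Fermat.Agent.S25.H266

variable {X : Scheme.{u}} {ι : Type u} {U : ι → X.Opens}

/-- **Objects glue** (G2, general cover, sectionwise cocycle condition). -/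
theorem exists_glue (D : GlueDatum U) (hD : D.Cocycle) :
    ∃ (N : X.Modules) (α : ∀ i, N.restrict (U i).ι ≅ D.M i),
      ∀ (i j : ι) (A : (U i).toScheme.Opens) (B : (U j).toScheme.Opens)
        (h : (U j).ι ''ᵁ B ≤ (U i).ι ''ᵁ A),
        (N.restrictAppIso (U i).ι A).inv ≫ (α i).hom.app A ≫ D.tr i j A B h =
          N.presheaf.map (homOfLE h).op ≫ (N.restrictAppIso (U j).ι B).inv ≫
            (α j).hom.app B :=
  ⟨D.glued, D.α hD, fun i j A B h => D.αHom_tr i j A B h⟩

end Fermat.Agent.S25.H266
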