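import Mathlib

/-!
# S25 / block GLUE / G2 — abstract multiequalizer lemma (helper266)

Abstract categorical core of gluing: in a multiequalizer diagram of shape `ι × ι`, if the
"second" maps out of the `k`-th row have retractions, a cocycle-type identity holds and the
diagonal is trivial, then the `k`-th projection of any limit multifork is an isomorphism.
-/

namespace Fermat.Agent.S25.H266

open CategoryTheory CategoryTheory.Limits

universe w v u

variable {C : Type u} [Category.{v} C] {ι : Type w}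

/-- Abstract core of gluing: the `k`-th projection of a limit multifork is an isomorphism,
with explicit inverse. -/
theorem isIso_multifork_ι_of_cocycle (I : MulticospanIndex (MulticospanShape.prod ι) C)
    (c : Multifork I) (hc : IsLimit c) (k : ι)
    (r : ∀ i : ι, I.right (k, i) ⟶ I.left i)
    (hr : ∀ i : ι, I.snd (k, i) ≫ r i = 𝟙 (I.left i))
    (hb : ∀ i j : ι, (I.fst (k, i) ≫ r i) ≫ I.fst (i, j) =
      (I.fst (k, j) ≫ r j) ≫ I.snd (i, j))
    (hk : I.fst (k, k) ≫ r k = 𝟙 (I.left k)) :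
    IsIso (c.ι k) := by
  let l : I.left k ⟶ c.pt :=
    Multifork.IsLimit.lift hc (fun (i : ι) => I.fst (k, i) ≫ r i) (fun p => hb p.1 p.2)
  have hl : ∀ i : ι, l ≫ c.ι i = I.fst (k, i) ≫ r i := fun i =>
    Multifork.IsLimit.fac hc _ _ i
  refine ⟨⟨l, ?_, ?_⟩⟩
  · refine Multifork.IsLimit.hom_ext hc (fun (i : ι) => ?_)
    have h1 : c.ι k ≫ I.fst (k, i) = c.ι i ≫ I.snd (k, i) := c.condition (k, i)
    have h2 := hr i
    calc (c.ι k ≫ l) ≫ c.ι i = c.ι k ≫ (l ≫ c.ι i) := Category.assoc _ _ _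
      _ = c.ι k ≫ (I.fst (k, i) ≫ r i) := congrArg (c.ι k ≫ ·) (hl i)
      _ = (c.ι k ≫ I.fst (k, i)) ≫ r i := (Category.assoc _ _ _).symm
      _ = (c.ι i ≫ I.snd (k, i)) ≫ r i := congrArg (· ≫ r i) h1
      _ = c.ι i ≫ (I.snd (k, i) ≫ r i) := Category.assoc _ _ _
      _ = c.ι i ≫ 𝟙 _ := congrArg (c.ι i ≫ ·) h2
      _ = c.ι i := Category.comp_id _
      _ = 𝟙 c.pt ≫ c.ι i := (Category.id_comp _).symm
  · exact (hl k).trans hk

end Fermat.Agent.S25.H266
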