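import Fermat.Agent.S25.H266.Glue

/-!
# S25 / block GLUE / G2 — categorical form of the cocycle condition (helper266)

`GlueDatum.resIso`: restriction of the transition isomorphisms to an open of the overlap;
`GlueDatum.CocycleCat`: the cocycle condition as an equation between isomorphisms of modules
on the triple overlaps; `GlueDatum.cocycle_of_cocycleCat : D.CocycleCat → D.Cocycle`.
-/

open CategoryTheory CategoryTheory.Limits AlgebraicGeometry TopologicalSpace Opposite

universe u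

namespace Fermat.Agent.S25.H266

noncomputable section

variable {X : Scheme.{u}} {ι : Type u} {U : ι → X.Opens} (D : GlueDatum U)

lemma map_map_apply' {Y : Scheme.{u}} (F : TopCat.Presheaf Ab Y) {A B C : (Opens Y)ᵒᵖ}
    (f : A ⟶ B) (g : B ⟶ C) (h : A ⟶ C) (x : F.obj A) :
    F.map g (F.map f x) = F.map h x := by
  have : f ≫ g = h := Subsingleton.elim _ _
  rw [← this, F.map_comp]
  rfl

lemma map_comp_map_of_le_assoc' {Y : Scheme.{u}} (F : TopCat.Presheaf Ab Y) {A : Y.Opens}
    {B : (Opens Y)ᵒᵖ} (f : op A ⟶ B) (g : B ⟶ op A) {Z : Ab} (k : F.obj (op A) ⟶ Z) :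
    F.map f ≫ F.map g ≫ k = k := by
  have : f ≫ g = 𝟙 _ := Subsingleton.elim _ _
  rw [← Category.assoc, ← F.map_comp, this, F.map_id, Category.id_comp]

namespace GlueDatum

/-- The restriction of the transition isomorphism `φ i j` to an open `W` of the overlap, as an
isomorphism between the restrictions of `M i` and `M j` to `W`. -/
def resIso (i j : ι) (W : X.Opens) (hW : W ≤ U i ⊓ U j) :
    (D.M i).restrict (X.homOfLE (hW.trans inf_le_left)) ≅
      (D.M j).restrict (X.homOfLE (hW.trans inf_le_right)) :=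
  (Scheme.Modules.restrictFunctorCongr
      (X.homOfLE_homOfLE hW (inf_le_left : U i ⊓ U j ≤ U i)).symm).app (D.M i) ≪≫
    (Scheme.Modules.restrictFunctorComp (X.homOfLE hW) (ovL U i j)).app (D.M i) ≪≫
    (Scheme.Modules.restrictFunctor (X.homOfLE hW)).mapIso (D.φ i j) ≪≫
    ((Scheme.Modules.restrictFunctorComp (X.homOfLE hW) (ovR U i j)).app (D.M j)).symm ≪≫
    (Scheme.Modules.restrictFunctorCongr
      (X.homOfLE_homOfLE hW (inf_le_right : U i ⊓ U j ≤ U j))).app (D.M j)

lemma resIso_hom_app (i j : ι) (W : X.Opens) (hW : W ≤ U i ⊓ U j) (B : W.toScheme.Opens) :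
    (D.resIso i j W hW).hom.app B =
      ((D.M i).restrictAppIso (X.homOfLE (hW.trans inf_le_left)) B).hom ≫
      D.tr i j (X.homOfLE (hW.trans inf_le_left) ''ᵁ B)
        (X.homOfLE (hW.trans inf_le_right) ''ᵁ B)
        (by rw [ι_image_homOfLE_image, ι_image_homOfLE_image]) ≫
      ((D.M j).restrictAppIso (X.homOfLE (hW.trans inf_le_right)) B).inv := by
  have hA : ovL U i j ''ᵁ (X.homOfLE hW ''ᵁ B) ≤ X.homOfLE (hW.trans inf_le_left) ''ᵁ B := by
    rw [opens_le_iff, ι_image_homOfLE_image, ι_image_homOfLE_image, ι_image_homOfLE_image]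
  have hB : X.homOfLE (hW.trans inf_le_right) ''ᵁ B ≤ ovR U i j ''ᵁ (X.homOfLE hW ''ᵁ B) := by
    rw [opens_le_iff, ι_image_homOfLE_image, ι_image_homOfLE_image, ι_image_homOfLE_image]
  rw [← D.tr_eq i j _ _ _ (X.homOfLE hW ''ᵁ B) hA hB]
  ext x
  have h1 : ∀ y : Γ(D.M i, X.homOfLE (hW.trans inf_le_left) ''ᵁ B),
      (D.resIso i j W hW).hom.app B y =
        (D.M j).presheaf.map (homOfLE hB).op ((D.φ i j).hom.app (X.homOfLE hW ''ᵁ B)
          ((D.M i).presheaf.map (homOfLE hA).op y)) := by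
    intro y
    simp only [resIso, Iso.trans_hom, Iso.app_hom, Iso.symm_hom, Iso.app_inv,
      Functor.mapIso_hom, Scheme.Modules.Hom.comp_app,
      Scheme.Modules.restrictFunctorCongr_hom_app_app,
      Scheme.Modules.restrictFunctorComp_hom_app_app,
      Scheme.Modules.restrictFunctorComp_inv_app_app]
    show (D.M j).presheaf.map _ ((D.M j).presheaf.map _
      ((D.φ i j).hom.app (X.homOfLE hW ''ᵁ B)
        ((D.M i).presheaf.map _ ((D.M i).presheaf.map _ y)))) = _
    rw [map_map_apply' (D.M i).presheaf _ _ (homOfLE hA).op,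
      map_map_apply' (D.M j).presheaf _ _ (homOfLE hB).op]
  exact h1 x

/-- The cocycle condition, as an equality of morphisms of modules on the triple overlaps. -/
def CocycleCat : Prop :=
  ∀ i j k : ι,
    (D.resIso i j (U i ⊓ U j ⊓ U k) (le_inf (inf_le_left.trans inf_le_left)
        (inf_le_left.trans inf_le_right))).hom ≫
      (D.resIso j k (U i ⊓ U j ⊓ U k) (le_inf (inf_le_left.trans inf_le_right)
        inf_le_right)).hom =
    (D.resIso i k (U i ⊓ U j ⊓ U k) (le_inf (inf_le_left.trans inf_le_left)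
        inf_le_right)).hom

lemma tr_congr (i j : ι) {A A' : (U i).toScheme.Opens} {B B' : (U j).toScheme.Opens}
    (hA : A = A') (hB : B = B') (h : (U j).ι ''ᵁ B ≤ (U i).ι ''ᵁ A) :
    D.tr i j A' B' (hA ▸ hB ▸ h) =
      (D.M i).presheaf.map (eqToHom hA).op ≫ D.tr i j A B h ≫
        (D.M j).presheaf.map (eqToHom hB.symm).op := by
  subst hA hB
  simp

theorem cocycle_of_cocycleCat (hD : D.CocycleCat) : D.Cocycle := by
  refine D.cocycle_of_eq (fun i j k V hV => ?_)
  have hVi : V ≤ U i := hV.trans (inf_le_left.trans inf_le_left)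
  have hVj : V ≤ U j := hV.trans (inf_le_left.trans inf_le_right)
  have hVk : V ≤ U k := hV.trans inf_le_right
  set B : (U i ⊓ U j ⊓ U k).toScheme.Opens := (U i ⊓ U j ⊓ U k).ι ⁻¹ᵁ V with hB
  have hi : X.homOfLE (inf_le_left.trans inf_le_left : U i ⊓ U j ⊓ U k ≤ U i) ''ᵁ B =
      (U i).ι ⁻¹ᵁ V := by
    rw [opens_eq_iff, ι_image_homOfLE_image, ι_image_preimage, ι_image_preimage,
      inf_eq_right.mpr hV, inf_eq_right.mpr hVi]
  have hj : X.homOfLE (inf_le_left.trans inf_le_right : U i ⊓ U j ⊓ U k ≤ U j) ''ᵁ B =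
      (U j).ι ⁻¹ᵁ V := by
    rw [opens_eq_iff, ι_image_homOfLE_image, ι_image_preimage, ι_image_preimage,
      inf_eq_right.mpr hV, inf_eq_right.mpr hVj]
  have hk : X.homOfLE (inf_le_right : U i ⊓ U j ⊓ U k ≤ U k) ''ᵁ B =
      (U k).ι ⁻¹ᵁ V := by
    rw [opens_eq_iff, ι_image_homOfLE_image, ι_image_preimage, ι_image_preimage,
      inf_eq_right.mpr hV, inf_eq_right.mpr hVk]
  have key := congrArg (fun f => Scheme.Modules.Hom.app f B) (hD i j k)
  simp only [Scheme.Modules.Hom.comp_app] at key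
  rw [resIso_hom_app, resIso_hom_app, resIso_hom_app] at key
  simp only [Category.assoc, Iso.cancel_iso_hom_left, Iso.inv_hom_id_assoc] at key
  rw [← Category.assoc, cancel_mono] at key
  have hij : (U j).ι ''ᵁ (X.homOfLE (inf_le_left.trans inf_le_right :
      U i ⊓ U j ⊓ U k ≤ U j) ''ᵁ B) ≤ (U i).ι ''ᵁ (X.homOfLE (inf_le_left.trans inf_le_left :
      U i ⊓ U j ⊓ U k ≤ U i) ''ᵁ B) := by
    rw [ι_image_homOfLE_image, ι_image_homOfLE_image]
  have hjk : (U k).ι ''ᵁ (X.homOfLE (inf_le_right :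
      U i ⊓ U j ⊓ U k ≤ U k) ''ᵁ B) ≤ (U j).ι ''ᵁ (X.homOfLE (inf_le_left.trans inf_le_right :
      U i ⊓ U j ⊓ U k ≤ U j) ''ᵁ B) := by
    rw [ι_image_homOfLE_image, ι_image_homOfLE_image]
  rw [D.tr_congr i j hi hj hij, D.tr_congr j k hj hk hjk, D.tr_congr i k hi hk (hjk.trans hij)]
  simp only [Category.assoc]
  rw [map_comp_map_of_le_assoc' (D.M j).presheaf, reassoc_of% key]

end GlueDatum
end
end Fermat.Agent.S25.H266
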