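import Fermat.Agent.S25.H266.GlueDatum

/-!
# S25 / block GLUE / G2 — the cocycle condition, sectionwise (helper266)
-/

open CategoryTheory CategoryTheory.Limits AlgebraicGeometry TopologicalSpace Opposite

universe u

namespace Fermat.Agent.S25.H266

noncomputable section

variable {X : Scheme.{u}} {ι : Type u} {U : ι → X.Opens} (D : GlueDatum U)

namespace GlueDatum

instance isIso_sec (i j : ι) (V : (U i ⊓ U j).toScheme.Opens) : IsIso (D.sec i j V) := by
  unfold sec
  infer_instance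

/-- `tr` is an isomorphism when source and target are the same open of `X`. -/
lemma isIso_tr (i j : ι) (A : (U i).toScheme.Opens) (B : (U j).toScheme.Opens)
    (h : (U j).ι ''ᵁ B = (U i).ι ''ᵁ A) : IsIso (D.tr i j A B h.le) := by
  have hBi : (U j).ι ''ᵁ B ≤ U i ⊓ U j :=
    le_inf (h.le.trans (Scheme.Opens.ι_image_le _ _)) (Scheme.Opens.ι_image_le _ _)
  have e1 : ovL U i j ''ᵁ ((ovR U i j) ⁻¹ᵁ B) = A := by
    rw [opens_eq_iff, ι_image_homOfLE_image, ι_image_homOfLE_preimage, ← h]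
    exact inf_eq_left.mpr hBi
  have e2 : B = ovR U i j ''ᵁ ((ovR U i j) ⁻¹ᵁ B) := by
    rw [opens_eq_iff, ι_image_homOfLE_image, ι_image_homOfLE_preimage]
    exact (inf_eq_left.mpr hBi).symm
  have := isIso_map_of_eq (D.M i).presheaf e1.symm (homOfLE e1.le).op
  have := isIso_map_of_eq (D.M j).presheaf e2.symm (homOfLE e2.le).op
  unfold tr
  infer_instance

/-- The cocycle condition, in sectionwise form. -/
def Cocycle : Prop :=
  ∀ (i j k : ι) (A : (U i).toScheme.Opens) (B : (U j).toScheme.Opens)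
    (C : (U k).toScheme.Opens) (hAB : (U j).ι ''ᵁ B ≤ (U i).ι ''ᵁ A)
    (hBC : (U k).ι ''ᵁ C ≤ (U j).ι ''ᵁ B),
    D.tr i j A B hAB ≫ D.tr j k B C hBC = D.tr i k A C (hBC.trans hAB)

/-- It suffices to check the cocycle condition on a common open of the triple overlap. -/
lemma cocycle_of_eq
    (H : ∀ (i j k : ι) (V : X.Opens) (_ : V ≤ U i ⊓ U j ⊓ U k),
      D.tr i j ((U i).ι ⁻¹ᵁ V) ((U j).ι ⁻¹ᵁ V)
          (by rw [ι_image_preimage, ι_image_preimage]
              exact le_inf (inf_le_right.trans ((le_inf_iff.mp (le_inf_iff.mp ‹_›).1).1))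
                inf_le_right) ≫
        D.tr j k ((U j).ι ⁻¹ᵁ V) ((U k).ι ⁻¹ᵁ V)
          (by rw [ι_image_preimage, ι_image_preimage]
              exact le_inf (inf_le_right.trans ((le_inf_iff.mp (le_inf_iff.mp ‹_›).1).2))
                inf_le_right) =
        D.tr i k ((U i).ι ⁻¹ᵁ V) ((U k).ι ⁻¹ᵁ V)
          (by rw [ι_image_preimage, ι_image_preimage]
              exact le_inf (inf_le_right.trans ((le_inf_iff.mp (le_inf_iff.mp ‹_›).1).1))
                inf_le_right)) :
    D.Cocycle := by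
  intro i j k A B C hAB hBC
  -- the common open
  obtain ⟨V, hVk, rfl⟩ : ∃ V : X.Opens, V ≤ U k ∧ (U k).ι ⁻¹ᵁ V = C :=
    ⟨(U k).ι ''ᵁ C, Scheme.Opens.ι_image_le _ _, Scheme.Hom.preimage_image_eq _ _⟩
  have hVV : (U k).ι ''ᵁ ((U k).ι ⁻¹ᵁ V) = V := by
    rw [ι_image_preimage]; exact inf_eq_right.mpr hVk
  rw [hVV] at hBC
  have hVj : V ≤ U j := hBC.trans (Scheme.Opens.ι_image_le _ _)
  have hVi : V ≤ U i := (hBC.trans hAB).trans (Scheme.Opens.ι_image_le _ _)
  have hVijk : V ≤ U i ⊓ U j ⊓ U k := le_inf (le_inf hVi hVj) hVk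
  have hA' : (U i).ι ⁻¹ᵁ V ≤ A := by
    rw [opens_le_iff, ι_image_preimage]; exact inf_le_right.trans (hBC.trans hAB)
  have hB' : (U j).ι ⁻¹ᵁ V ≤ B := by
    rw [opens_le_iff, ι_image_preimage]; exact inf_le_right.trans hBC
  have key := H i j k V hVijk
  -- rewrite each `tr` through the common open
  have e1 : D.tr i j A B hAB ≫ (D.M j).presheaf.map (homOfLE hB').op =
      (D.M i).presheaf.map (homOfLE hA').op ≫ D.tr i j ((U i).ι ⁻¹ᵁ V) ((U j).ι ⁻¹ᵁ V)
        (by rw [ι_image_preimage, ι_image_preimage]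
            exact le_inf (inf_le_right.trans hVi) inf_le_right) := by
    rw [tr_map, map_tr]
  have e2 : D.tr j k B ((U k).ι ⁻¹ᵁ V) (hVV.le.trans hBC) =
      (D.M j).presheaf.map (homOfLE hB').op ≫ D.tr j k ((U j).ι ⁻¹ᵁ V) ((U k).ι ⁻¹ᵁ V)
        (by rw [ι_image_preimage, ι_image_preimage]
            exact le_inf (inf_le_right.trans hVj) inf_le_right) := by
    rw [map_tr]
  have e3 : D.tr i k A ((U k).ι ⁻¹ᵁ V) ((hVV.le.trans hBC).trans hAB) =
      (D.M i).presheaf.map (homOfLE hA').op ≫ D.tr i k ((U i).ι ⁻¹ᵁ V) ((U k).ι ⁻¹ᵁ V)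
        (by rw [ι_image_preimage, ι_image_preimage]
            exact le_inf (inf_le_right.trans hVi) inf_le_right) := by
    rw [map_tr]
  rw [e2, reassoc_of% e1, e3, key]

/-- Under the cocycle condition, the self-transition maps are identities. -/
lemma Cocycle.tr_self (hD : D.Cocycle) (i : ι) (A : (U i).toScheme.Opens) :
    D.tr i i A A le_rfl = 𝟙 _ := by
  have := D.isIso_tr i i A A rfl
  have h := hD i i i A A A le_rfl le_rfl
  rw [← cancel_mono (D.tr i i A A le_rfl), h, Category.id_comp]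

end GlueDatum

end

end Fermat.Agent.S25.H266
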