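import Fermat.Agent.S25.H266.GlueCocycle
import Fermat.Agent.S25.H266.GlueAbstract

/-!
# S25 / block GLUE / G2 — construction of the glued module (helper266)

The glued module is the multiequalizer in `X.Modules` of the pushforwards
`(U i).ι_* (M i) ⇉ (U i ⊓ U j).ι_* (M j |_{U i ⊓ U j})`.
-/

open CategoryTheory CategoryTheory.Limits AlgebraicGeometry TopologicalSpace Opposite

universe u

namespace Fermat.Agent.S25.H266

noncomputable section

variable {X : Scheme.{u}}

lemma homOfLE_image_preimage_le' {U W : X.Opens} (h : W ≤ U) (V : X.Opens) :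
    (X.homOfLE h) ''ᵁ (W.ι ⁻¹ᵁ V) ≤ (X.homOfLE h) ''ᵁ ((X.homOfLE h) ⁻¹ᵁ (U.ι ⁻¹ᵁ V)) := by
  apply Scheme.Hom.image_mono
  rw [← Scheme.Hom.comp_preimage]
  simp only [X.homOfLE_ι]
  exact le_rfl

/-- The canonical morphism `ι_* N ⟶ ι'_* (N|_W)` for `W ≤ U`. -/
def toOverlap {U W : X.Opens} (h : W ≤ U) (N : U.toScheme.Modules) :
    (Scheme.Modules.pushforward U.ι).obj N ⟶
      (Scheme.Modules.pushforward W.ι).obj (N.restrict (X.homOfLE h)) :=
  (Scheme.Modules.pushforward U.ι).map
      ((Scheme.Modules.restrictAdjunction (X.homOfLE h)).unit.app N) ≫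
    (Scheme.Modules.pushforwardComp (X.homOfLE h) U.ι).hom.app _ ≫
    (Scheme.Modules.pushforwardCongr (X.homOfLE_ι h)).hom.app _

lemma toOverlap_app_aux {U W : X.Opens} (h : W ≤ U) (N : U.toScheme.Modules) (V : X.Opens) :
    (toOverlap h N).app V =
      N.presheaf.map (homOfLE ((X.homOfLE h).image_preimage_le (U.ι ⁻¹ᵁ V))).op ≫
        N.presheaf.map (homOfLE (homOfLE_image_preimage_le' h V)).op := by
  simp only [toOverlap, Scheme.Modules.Hom.comp_app, Scheme.Modules.pushforward_map_app,
    Scheme.Modules.restrictAdjunction_unit_app_app, Scheme.Modules.pushforwardComp_hom_app_app,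
    Scheme.Modules.pushforwardCongr_hom_app_app]
  rfl

lemma toOverlap_app {U W : X.Opens} (h : W ≤ U) (N : U.toScheme.Modules) (V : X.Opens) :
    (toOverlap h N).app V ≫ (N.restrictAppIso (X.homOfLE h) (W.ι ⁻¹ᵁ V)).hom =
      N.presheaf.map (homOfLE (homOfLE_image_preimage_le h V)).op := by
  rw [toOverlap_app_aux, ← Functor.map_comp]
  rfl

variable {ι : Type u} {U : ι → X.Opens} (D : GlueDatum U)

namespace GlueDatum

/-- The `i`-th left object: the pushforward of `M i` to `X`. -/
def leftObj (i : ι) : X.Modules := (Scheme.Modules.pushforward (U i).ι).obj (D.M i)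

/-- The `(i, j)`-th right object: the pushforward of `M j |_{U i ⊓ U j}` to `X`. -/
def rightObj (i j : ι) : X.Modules :=
  (Scheme.Modules.pushforward (U i ⊓ U j).ι).obj ((D.M j).restrict (ovR U i j))

/-- The second map `(U j).ι_* M j ⟶ (U i ⊓ U j).ι_* (M j |_{U i ⊓ U j})`: restriction. -/
def sndMap (i j : ι) : D.leftObj j ⟶ D.rightObj i j :=
  toOverlap inf_le_right (D.M j)

/-- The first map `(U i).ι_* M i ⟶ (U i ⊓ U j).ι_* (M j |_{U i ⊓ U j})`: restriction followed
by the transition isomorphism. -/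
def fstMap (i j : ι) : D.leftObj i ⟶ D.rightObj i j :=
  toOverlap inf_le_left (D.M i) ≫
    (Scheme.Modules.pushforward (U i ⊓ U j).ι).map (D.φ i j).hom

/-- The multicospan index whose multiequalizer is the glued module. -/
def index : MulticospanIndex (MulticospanShape.prod ι) X.Modules where
  left i := D.leftObj i
  right p := D.rightObj p.1 p.2
  fst p := D.fstMap p.1 p.2
  snd p := D.sndMap p.1 p.2

/-- Sections of the right object, identified with sections of `M j`. -/
def rightIso (i j : ι) (W : X.Opens) :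
    Γ(D.rightObj i j, W) ≅ Γ(D.M j, ovR U i j ''ᵁ ((U i ⊓ U j).ι ⁻¹ᵁ W)) :=
  (D.M j).restrictAppIso (ovR U i j) ((U i ⊓ U j).ι ⁻¹ᵁ W)

/-- Sections of the left object are sections of `M i`. -/
def leftIso (i : ι) (W : X.Opens) : Γ(D.leftObj i, W) ≅ Γ(D.M i, (U i).ι ⁻¹ᵁ W) :=
  Iso.refl _

lemma sndMap_app (i j : ι) (W : X.Opens) :
    (D.sndMap i j).app W ≫ (D.rightIso i j W).hom =
      (D.leftIso j W).hom ≫
      (D.M j).presheaf.map (homOfLE (homOfLE_image_preimage_le inf_le_right W)).op :=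
  (toOverlap_app _ _ _).trans (Category.id_comp _).symm

lemma fstMap_app (i j : ι) (W : X.Opens) :
    (D.fstMap i j).app W ≫ (D.rightIso i j W).hom =
      (D.leftIso i W).hom ≫
      D.tr i j ((U i).ι ⁻¹ᵁ W) (ovR U i j ''ᵁ ((U i ⊓ U j).ι ⁻¹ᵁ W))
        (by rw [ι_image_homOfLE_image, ι_image_preimage, ι_image_preimage]
            exact inf_le_inf_right _ inf_le_left) := by
  rw [← D.tr_eq i j _ _ _ ((U i ⊓ U j).ι ⁻¹ᵁ W) (homOfLE_image_preimage_le inf_le_left W) le_rfl,
    map_eq_id_of_le, Category.comp_id, ← toOverlap_app inf_le_left (D.M i) W]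
  rfl

/-- The glued module. -/
def glued : X.Modules := multiequalizer D.index

/-- The projection from the glued module to the pushforward of the `i`-th local module. -/
def π (i : ι) : D.glued ⟶ D.leftObj i :=
  Multiequalizer.ι D.index i

lemma π_condition (i j : ι) : D.π i ≫ D.fstMap i j = D.π j ≫ D.sndMap i j :=
  Multiequalizer.condition D.index (i, j)

/-- Evaluation of modules at an open, as a functor to abelian groups. -/
def evalAb (W : X.Opens) : X.Modules ⥤ Ab.{u} :=
  Scheme.Modules.toPresheaf X ⋙ (evaluation (Opens X)ᵒᵖ Ab.{u}).obj (op W)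

instance preservesLimits_evalAb (W : X.Opens) :
    PreservesLimitsOfSize.{u, u} (evalAb (X := X) W) := by
  have h1 : PreservesLimitsOfSize.{u, u} (Scheme.Modules.toPresheaf X) := inferInstance
  have h2 : PreservesLimitsOfSize.{u, u} ((evaluation (Opens X)ᵒᵖ Ab.{u}).obj (op W)) :=
    inferInstance
  exact @comp_preservesLimits _ _ _ _ _ _ (Scheme.Modules.toPresheaf X)
    ((evaluation (Opens X)ᵒᵖ Ab.{u}).obj (op W)) h1 h2

lemma evalAb_map (W : X.Opens) {M N : X.Modules} (f : M ⟶ N) :
    (evalAb W).map f = f.app W := rfl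

/-- The retraction used in the abstract gluing lemma. -/
def retr (k i : ι) (W : X.Opens) (hW : W ≤ U k) :
    Γ(D.rightObj k i, W) ⟶ Γ(D.leftObj i, W) :=
  (D.rightIso k i W).hom ≫
    (D.M i).presheaf.map (homOfLE (le_homOfLE_image_preimage
      (inf_le_right : U k ⊓ U i ≤ U i) (V := W) (V' := W)
      (le_inf (le_inf (inf_le_right.trans hW) inf_le_left) inf_le_right))).op ≫
    (D.leftIso i W).inv

lemma snd_retr (k i : ι) (W : X.Opens) (hW : W ≤ U k) :
    (D.sndMap k i).app W ≫ D.retr k i W hW = 𝟙 _ := by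
  rw [retr, ← Category.assoc, sndMap_app, Category.assoc,
    ← Category.assoc ((D.M i).presheaf.map _), map_comp_map_of_le _ _ _ (𝟙 _), map_eq_id_of_le,
    Category.id_comp, Iso.hom_inv_id]

lemma fst_retr (k i : ι) (W : X.Opens) (hW : W ≤ U k) :
    (D.fstMap k i).app W ≫ D.retr k i W hW =
      (D.leftIso k W).hom ≫ D.tr k i ((U k).ι ⁻¹ᵁ W) ((U i).ι ⁻¹ᵁ W)
        (by rw [ι_image_preimage, ι_image_preimage]
            exact le_inf (inf_le_right.trans hW) inf_le_right) ≫ (D.leftIso i W).inv := by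
  rw [retr, ← Category.assoc, fstMap_app, Category.assoc, ← Category.assoc (D.tr _ _ _ _ _),
    tr_map]

lemma retr_cocycle (hD : D.Cocycle) (k i j : ι) (W : X.Opens) (hW : W ≤ U k) :
    ((D.fstMap k i).app W ≫ D.retr k i W hW) ≫ (D.fstMap i j).app W =
      ((D.fstMap k j).app W ≫ D.retr k j W hW) ≫ (D.sndMap i j).app W := by
  rw [← cancel_mono (D.rightIso i j W).hom, fst_retr, fst_retr]
  simp only [Category.assoc]
  rw [fstMap_app, sndMap_app, Iso.inv_hom_id_assoc, Iso.inv_hom_id_assoc, hD, tr_map]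

lemma fst_retr_self (hD : D.Cocycle) (k : ι) (W : X.Opens) (hW : W ≤ U k) :
    (D.fstMap k k).app W ≫ D.retr k k W hW = 𝟙 _ := by
  rw [fst_retr, hD.tr_self, Category.id_comp, Iso.hom_inv_id]

/-- Key step: over opens contained in `U k`, the `k`-th projection of the glued module is an
isomorphism on sections. -/
theorem isIso_π_app (hD : D.Cocycle) (k : ι) (W : X.Opens) (hW : W ≤ U k) :
    IsIso ((D.π k).app W) :=
  isIso_multifork_ι_of_cocycle (D.index.map (evalAb W))
    ((Multiequalizer.multifork D.index).map (evalAb W))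
    (Multifork.isLimitMapOfPreserves _ (evalAb W) (limit.isLimit _)) k
    (fun i => D.retr k i W hW)
    (fun i => D.snd_retr k i W hW)
    (fun i j => D.retr_cocycle hD k i j W hW)
    (D.fst_retr_self hD k W hW)

end GlueDatum

end

end Fermat.Agent.S25.H266
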