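import Fermat.Agent.S25.H266.GlueOpens

/-!
# S25 / block GLUE / G2 — gluing data for sheaves of modules (helper266)

`GlueDatum U`: modules `M i` on the opens `U i` of a scheme `X` together with isomorphisms
`φ i j : M i |_{U i ⊓ U j} ≅ M j |_{U i ⊓ U j}`; sectionwise transition maps `tr` and their
naturality.
-/

open CategoryTheory CategoryTheory.Limits AlgebraicGeometry TopologicalSpace Opposite

universe u

namespace Fermat.Agent.S25.H266

noncomputable section

variable {X : Scheme.{u}} {ι : Type u} (U : ι → X.Opens)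

/-- The inclusion of the overlap `U i ⊓ U j` into `U i`. -/
abbrev ovL (i j : ι) : (U i ⊓ U j).toScheme ⟶ (U i).toScheme := X.homOfLE inf_le_left

/-- The inclusion of the overlap `U i ⊓ U j` into `U j`. -/
abbrev ovR (i j : ι) : (U i ⊓ U j).toScheme ⟶ (U j).toScheme := X.homOfLE inf_le_right

/-- A gluing datum for sheaves of modules along a family of opens `U i` of `X`:
modules `M i` on `U i` and isomorphisms on the overlaps. -/
structure GlueDatum where
  /-- the local modules -/
  M : ∀ i, (U i).toScheme.Modules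
  /-- the transition isomorphisms on overlaps -/
  φ : ∀ i j, (M i).restrict (ovL U i j) ≅ (M j).restrict (ovR U i j)

variable {U}
variable (D : GlueDatum U)

namespace GlueDatum

/-- The map on sections induced by `φ i j` over an open `V` of the overlap, between the
sections of `M i` and `M j` over the images of `V`. -/
def sec (i j : ι) (V : (U i ⊓ U j).toScheme.Opens) :
    Γ(D.M i, ovL U i j ''ᵁ V) ⟶ Γ(D.M j, ovR U i j ''ᵁ V) :=
  ((D.M i).restrictAppIso (ovL U i j) V).inv ≫ (D.φ i j).hom.app V ≫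
    ((D.M j).restrictAppIso (ovR U i j) V).hom

/-- Naturality of `sec` in the open. -/
lemma sec_naturality (i j : ι) {V V' : (U i ⊓ U j).toScheme.Opens} (f : V' ⟶ V) :
    D.sec i j V ≫ (D.M j).presheaf.map (homOfLE ((ovR U i j).image_mono f.le)).op =
      (D.M i).presheaf.map (homOfLE ((ovL U i j).image_mono f.le)).op ≫ D.sec i j V' := by
  have h := hom_naturality (D.φ i j).hom f
  have h1 := Scheme.Modules.map_restrictAppIso_hom (ovR U i j) (D.M j) f.op
  have h2 := Scheme.Modules.restrictAppIso_inv_map (ovL U i j) (D.M i) f.op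
  simp only [sec, Category.assoc]
  rw [← h1, ← reassoc_of% h, reassoc_of% h2]

/-- The transition map on sections: for `B ⊆ A` (inside `X`), `A` open in `U i` and `B` open
in `U j`, the map `Γ(M i, A) ⟶ Γ(M j, B)` induced by `φ i j`. -/
def tr (i j : ι) (A : (U i).toScheme.Opens) (B : (U j).toScheme.Opens)
    (h : (U j).ι ''ᵁ B ≤ (U i).ι ''ᵁ A) : Γ(D.M i, A) ⟶ Γ(D.M j, B) :=
  (D.M i).presheaf.map (homOfLE (homOfLE_image_homOfLE_preimage_le
      (inf_le_left : U i ⊓ U j ≤ U i) (inf_le_right : U i ⊓ U j ≤ U j) h)).op ≫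
    D.sec i j ((ovR U i j) ⁻¹ᵁ B) ≫
    (D.M j).presheaf.map (homOfLE (le_homOfLE_image_homOfLE_preimage
      (inf_le_right : U i ⊓ U j ≤ U j)
      (le_inf (h.trans (Scheme.Opens.ι_image_le _ _)) (Scheme.Opens.ι_image_le _ _)))).op

/-- `tr` can be computed using any open of the overlap squeezed between `B` and `A`. -/
lemma tr_eq (i j : ι) (A : (U i).toScheme.Opens) (B : (U j).toScheme.Opens)
    (h : (U j).ι ''ᵁ B ≤ (U i).ι ''ᵁ A) (V : (U i ⊓ U j).toScheme.Opens)
    (hA : ovL U i j ''ᵁ V ≤ A) (hB : B ≤ ovR U i j ''ᵁ V) :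
    (D.M i).presheaf.map (homOfLE hA).op ≫ D.sec i j V ≫
      (D.M j).presheaf.map (homOfLE hB).op = D.tr i j A B h := by
  have hV : (ovR U i j) ⁻¹ᵁ B ≤ V := homOfLE_preimage_le_of_le_image _ hB
  have h1 := D.sec_naturality i j (homOfLE hV)
  have h2 : (D.M j).presheaf.map (homOfLE hB).op =
      (D.M j).presheaf.map (homOfLE ((ovR U i j).image_mono hV)).op ≫
      (D.M j).presheaf.map (homOfLE (le_homOfLE_image_homOfLE_preimage
      (inf_le_right : U i ⊓ U j ≤ U j)
      (le_inf (h.trans (Scheme.Opens.ι_image_le _ _)) (Scheme.Opens.ι_image_le _ _)))).op :=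
    (map_comp_map_of_le _ _ _ _).symm
  rw [h2, reassoc_of% h1, tr, ← Category.assoc ((D.M i).presheaf.map _),
    map_comp_map_of_le _ _ _ (homOfLE (homOfLE_image_homOfLE_preimage_le
      (inf_le_left : U i ⊓ U j ≤ U i) (inf_le_right : U i ⊓ U j ≤ U j) h))]

/-- Naturality of `tr` in the source. -/
lemma map_tr (i j : ι) {A A' : (U i).toScheme.Opens} (B : (U j).toScheme.Opens)
    (f : A' ⟶ A) (h : (U j).ι ''ᵁ B ≤ (U i).ι ''ᵁ A') :
    (D.M i).presheaf.map f.op ≫ D.tr i j A' B h =
      D.tr i j A B (h.trans ((U i).ι.image_mono f.le)) := by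
  rw [tr, tr, ← Category.assoc, map_comp_map_of_le _ _ _ (homOfLE
    (homOfLE_image_homOfLE_preimage_le (inf_le_left : U i ⊓ U j ≤ U i)
      (inf_le_right : U i ⊓ U j ≤ U j) (h.trans ((U i).ι.image_mono f.le))))]

/-- Naturality of `tr` in the target. -/
lemma tr_map (i j : ι) (A : (U i).toScheme.Opens) {B B' : (U j).toScheme.Opens}
    (f : B' ⟶ B) (h : (U j).ι ''ᵁ B ≤ (U i).ι ''ᵁ A) :
    D.tr i j A B h ≫ (D.M j).presheaf.map f.op =
      D.tr i j A B' (((U j).ι.image_mono f.le).trans h) := by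
  have hB : B' ≤ ovR U i j ''ᵁ ((ovR U i j) ⁻¹ᵁ B) :=
    f.le.trans (le_homOfLE_image_homOfLE_preimage (inf_le_right : U i ⊓ U j ≤ U j)
      (le_inf (h.trans (Scheme.Opens.ι_image_le _ _)) (Scheme.Opens.ι_image_le _ _)))
  rw [← D.tr_eq i j A B' _ ((ovR U i j) ⁻¹ᵁ B) (homOfLE_image_homOfLE_preimage_le
      (inf_le_left : U i ⊓ U j ≤ U i) (inf_le_right : U i ⊓ U j ≤ U j) h) hB, tr,
    Category.assoc, Category.assoc, map_comp_map_of_le _ _ _ (homOfLE hB)]

end GlueDatum

end

end Fermat.Agent.S25.H266
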