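import Fermat.Agent.S25.H266.GlueConstruct

/-!
# S25 / block GLUE / G2 — the glued module restricts to the local modules (helper266)
-/

open CategoryTheory CategoryTheory.Limits AlgebraicGeometry TopologicalSpace Opposite

universe u

namespace Fermat.Agent.S25.H266

noncomputable section

variable {X : Scheme.{u}} {ι : Type u} {U : ι → X.Opens} (D : GlueDatum U)

namespace GlueDatum

/-- The comparison morphism from the restriction of the glued module to `U k` to `M k`. -/
def αHom (k : ι) : D.glued.restrict (U k).ι ⟶ D.M k :=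
  (Scheme.Modules.restrictFunctor (U k).ι).map (D.π k) ≫
    (Scheme.Modules.restrictAdjunction (U k).ι).counit.app (D.M k)

lemma αHom_app (k : ι) (V : (U k).toScheme.Opens) :
    (D.αHom k).app V =
      (D.glued.restrictAppIso (U k).ι V).hom ≫ (D.π k).app ((U k).ι ''ᵁ V) ≫
        (D.leftIso k _).hom ≫
        (D.M k).presheaf.map (eqToHom ((U k).ι.preimage_image_eq V).symm).op := by
  simp only [αHom, Scheme.Modules.Hom.comp_app]
  rfl

lemma isIso_αHom (hD : D.Cocycle) (k : ι) : IsIso (D.αHom k) := by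
  rw [Scheme.Modules.Hom.isIso_iff_isIso_app]
  intro V
  rw [αHom_app]
  have := D.isIso_π_app hD k ((U k).ι ''ᵁ V) (Scheme.Opens.ι_image_le _ _)
  infer_instance

/-- The isomorphism between the restriction of the glued module to `U k` and `M k`. -/
def α (hD : D.Cocycle) (k : ι) : D.glued.restrict (U k).ι ≅ D.M k :=
  haveI := D.isIso_αHom hD k
  asIso (D.αHom k)

@[simp] lemma α_hom (hD : D.Cocycle) (k : ι) : (D.α hD k).hom = D.αHom k := rfl

lemma leftObj_map (i : ι) {W W' : X.Opens} (f : W ⟶ W') :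
    (D.leftObj i).presheaf.map f.op ≫ (D.leftIso i W).hom =
      (D.leftIso i W').hom ≫
        (D.M i).presheaf.map (homOfLE ((U i).ι.preimage_mono f.le)).op := by
  simp only [leftIso, Iso.refl_hom]
  rfl

/-- The projections of the glued module are compatible with the transition maps. -/
lemma π_tr (i j : ι) (W : X.Opens) :
    (D.π i).app W ≫ (D.leftIso i W).hom ≫
        D.tr i j ((U i).ι ⁻¹ᵁ W) (ovR U i j ''ᵁ ((U i ⊓ U j).ι ⁻¹ᵁ W))
          (by rw [ι_image_homOfLE_image, ι_image_preimage, ι_image_preimage]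
              exact inf_le_inf_right _ inf_le_left) =
      (D.π j).app W ≫ (D.leftIso j W).hom ≫
        (D.M j).presheaf.map (homOfLE (homOfLE_image_preimage_le inf_le_right W)).op := by
  have h := congrArg (fun f => Scheme.Modules.Hom.app f W ≫ (D.rightIso i j W).hom)
    (D.π_condition i j)
  simp only [Scheme.Modules.Hom.comp_app, Category.assoc] at h
  rw [fstMap_app, sndMap_app] at h
  exact h

/-- Sectionwise compatibility of the isomorphisms `α` with the transition maps. -/
theorem αHom_tr (i j : ι) (A : (U i).toScheme.Opens) (B : (U j).toScheme.Opens)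
    (h : (U j).ι ''ᵁ B ≤ (U i).ι ''ᵁ A) :
    (D.glued.restrictAppIso (U i).ι A).inv ≫ (D.αHom i).app A ≫ D.tr i j A B h =
      D.glued.presheaf.map (homOfLE h).op ≫ (D.glued.restrictAppIso (U j).ι B).inv ≫
        (D.αHom j).app B := by
  have hBi : (U j).ι ''ᵁ B ≤ U i := h.trans (Scheme.Opens.ι_image_le _ _)
  have hBj : (U j).ι ''ᵁ B ≤ U j := Scheme.Opens.ι_image_le _ _
  have hB1 : B ≤ ovR U i j ''ᵁ ((U i ⊓ U j).ι ⁻¹ᵁ ((U j).ι ''ᵁ B)) := by
    rw [opens_le_iff, ι_image_homOfLE_image, ι_image_preimage]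
    exact le_inf (le_inf hBi hBj) le_rfl
  have hA1 : (U i).ι ⁻¹ᵁ ((U j).ι ''ᵁ B) ≤ (U i).ι ⁻¹ᵁ ((U i).ι ''ᵁ A) :=
    (U i).ι.preimage_mono h
  have key := D.π_tr i j ((U j).ι ''ᵁ B)
  have key2 := congrArg (fun f => f ≫ (D.M j).presheaf.map (homOfLE hB1).op) key
  simp only [Category.assoc] at key2
  rw [tr_map, map_comp_map_of_le _ _ _
    (eqToHom ((U j).ι.preimage_image_eq B).symm)] at key2
  have nat := hom_naturality (D.π i) (homOfLE h)
  rw [αHom_app, αHom_app]
  simp only [Category.assoc, Iso.inv_hom_id_assoc]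
  rw [map_tr, ← key2, reassoc_of% nat, reassoc_of% (D.leftObj_map i (homOfLE h)), map_tr]

end GlueDatum

end

end Fermat.Agent.S25.H266
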