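import Mathlib

/-!
# S25 / block GLUE / G2 — lemmas on opens of open subschemes (helper266)
-/

namespace Fermat.Agent.S25.H266

open CategoryTheory CategoryTheory.Limits AlgebraicGeometry TopologicalSpace Opposite

universe u

variable {X : Scheme.{u}}

lemma ι_image_homOfLE_image {U W : X.Opens} (h : W ≤ U) (A : W.toScheme.Opens) :
    U.ι ''ᵁ ((X.homOfLE h) ''ᵁ A) = W.ι ''ᵁ A := by
  simp only [← Scheme.Hom.comp_image, X.homOfLE_ι]

lemma ι_image_preimage (U V : X.Opens) : U.ι ''ᵁ (U.ι ⁻¹ᵁ V) = U ⊓ V := by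
  simp only [Scheme.Hom.image_preimage_eq_opensRange_inf, Scheme.Opens.opensRange_ι]

lemma ι_image_homOfLE_preimage {U W : X.Opens} (h : W ≤ U) (B : U.toScheme.Opens) :
    W.ι ''ᵁ ((X.homOfLE h) ⁻¹ᵁ B) = U.ι ''ᵁ B ⊓ W :=
  X.ι_image_homOfLE_eq_ι_image_inf h B

/-- Comparison of opens of `U` can be done after taking images in `X`. -/
lemma opens_le_iff (U : X.Opens) (A B : U.toScheme.Opens) :
    A ≤ B ↔ U.ι ''ᵁ A ≤ U.ι ''ᵁ B :=
  (Scheme.Hom.image_le_image_iff U.ι A B).symm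

lemma opens_eq_iff (U : X.Opens) (A B : U.toScheme.Opens) :
    A = B ↔ U.ι ''ᵁ A = U.ι ''ᵁ B :=
  ⟨fun h => h ▸ rfl, fun h => Scheme.Hom.image_injective U.ι h⟩

lemma homOfLE_image_preimage_le {U W : X.Opens} (h : W ≤ U) (V : X.Opens) :
    (X.homOfLE h) ''ᵁ (W.ι ⁻¹ᵁ V) ≤ U.ι ⁻¹ᵁ V := by
  rw [opens_le_iff, ι_image_homOfLE_image, ι_image_preimage, ι_image_preimage]
  exact inf_le_inf_right _ h

lemma le_homOfLE_image_preimage {U W : X.Opens} (h : W ≤ U) {V V' : X.Opens}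
    (hV : U ⊓ V' ≤ W ⊓ V) :
    U.ι ⁻¹ᵁ V' ≤ (X.homOfLE h) ''ᵁ (W.ι ⁻¹ᵁ V) := by
  rw [opens_le_iff, ι_image_homOfLE_image, ι_image_preimage, ι_image_preimage]
  exact hV

lemma homOfLE_image_homOfLE_preimage_le {U U' W : X.Opens} (h : W ≤ U) (h' : W ≤ U')
    {A : U.toScheme.Opens} {B : U'.toScheme.Opens} (hAB : U'.ι ''ᵁ B ≤ U.ι ''ᵁ A) :
    (X.homOfLE h) ''ᵁ ((X.homOfLE h') ⁻¹ᵁ B) ≤ A := by
  rw [opens_le_iff, ι_image_homOfLE_image, ι_image_homOfLE_preimage]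
  exact inf_le_left.trans hAB

lemma le_homOfLE_image_homOfLE_preimage {U W : X.Opens} (h : W ≤ U)
    {B : U.toScheme.Opens} (hB : U.ι ''ᵁ B ≤ W) :
    B ≤ (X.homOfLE h) ''ᵁ ((X.homOfLE h) ⁻¹ᵁ B) := by
  rw [opens_le_iff, ι_image_homOfLE_image, ι_image_homOfLE_preimage]
  exact le_inf le_rfl hB

lemma homOfLE_preimage_le_of_le_image {U W : X.Opens} (h : W ≤ U)
    {B : U.toScheme.Opens} {V : W.toScheme.Opens} (hB : B ≤ (X.homOfLE h) ''ᵁ V) :
    (X.homOfLE h) ⁻¹ᵁ B ≤ V := by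
  have := (X.homOfLE h).preimage_mono hB
  rwa [Scheme.Hom.preimage_image_eq] at this

/-- The restriction map of a presheaf along an equality of opens is an isomorphism. -/
lemma isIso_map_of_eq {Y : Scheme.{u}} (F : TopCat.Presheaf Ab Y) {A B : Y.Opens} (h : A = B)
    (f : op A ⟶ op B) : IsIso (F.map f) := by
  subst h
  have : f = 𝟙 _ := Subsingleton.elim _ _
  rw [this, F.map_id]
  infer_instance

lemma map_comp_map_of_le {Y : Scheme.{u}} (F : TopCat.Presheaf Ab Y) {A B C : Y.Opens}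
    (f : B ⟶ A) (g : C ⟶ B) (k : C ⟶ A) :
    F.map f.op ≫ F.map g.op = F.map k.op := by
  rw [← F.map_comp]
  congr 1

lemma map_eq_id_of_le {Y : Scheme.{u}} (F : TopCat.Presheaf Ab Y) {A : Y.Opens}
    (f : A ⟶ A) : F.map f.op = 𝟙 _ := by
  have : f = 𝟙 _ := Subsingleton.elim _ _
  rw [this, op_id, F.map_id]

/-- Naturality of a morphism of modules with respect to restriction maps. -/
lemma hom_naturality {Y : Scheme.{u}} {M N : Y.Modules} (φ : M ⟶ N) {V V' : Y.Opens}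
    (f : V' ⟶ V) :
    M.presheaf.map f.op ≫ φ.app V' = φ.app V ≫ N.presheaf.map f.op :=
  φ.mapPresheaf.naturality f.op

end Fermat.Agent.S25.H266
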